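import Fermat.Agent.Lifting.Residual.TaylorWiles
import Fermat.Agent.BadPrime.Mazur.Embedding
import Fermat.Agent.FiniteFlat.S32Of
import Fermat.Agent.FlatLocal.FromFlat
import Fermat.Agent.EichlerShimura.Inputs
import Fermat.Agent.S19
import Fermat.Prelude.Def_FLTPrelim_ModularRep

/-!
# A residual level prime to `p` gives an integral model of `E[p]` at `p`

`E[p]` sits equivariantly in `J₀(M)[p]`, which has a finite flat model when `p ∤ M`.
-/

set_option autoImplicit false
set_option linter.style.haveILetI false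

noncomputable section

open scoped WeierstrassCurve.Affine
open Polynomial

namespace Fermat.Agent.Lifting.Squarefree.Tres

open EC.Reducible (Tors)

local notation "ℚ̄" => AlgebraicClosure ℚ
local notation "Γℚ" => (AlgebraicClosure ℚ ≃ₐ[ℚ] AlgebraicClosure ℚ)

variable (W : WeierstrassCurve ℤ) (p : ℕ) [hp : Fact p.Prime]

/-- The action of the local Galois group on `E[p]`. -/
@[reducible] def locAction : DistribMulAction (FlatLocal.Gp p) (Tors W p) :=
  DistribMulAction.compHom _ (localGaloisToGlobal p)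

variable {W} {p}

theorem nonempty_model (hΔ : W.Δ ≠ 0) (hp2 : p ≠ 2) (hirr : W.ModRepIsIrreducible p) {M : ℕ}
    (hM : 0 < M) (hpM : ¬ p ∣ M) (hmod : W.IsResiduallyModularOfLevel p M) :
    letI := locAction W p
    Nonempty (FlatLocal.Model p (Tors W p)) := by
  letI := locAction W p
  haveI : NeZero M := ⟨hM.ne'⟩
  haveI := EC.Reducible.finiteDimensional_torsion (p := p) hΔ
  haveI : Finite (Tors W p) := Module.finite_of_finite (ZMod p)
  obtain ⟨g, 𝔪, hg, hmax, hpm, hcong⟩ := hmod
  obtain ⟨ψ, hψ, hψσ⟩ := BadPrime.Mazur.exists_embedding (EichlerShimura.kummerIso_modular M)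
    (EichlerShimura.frobeniusOnTorsion_modular M p) (Residual.torsRep W p hΔ)
    (Residual.torsRep_isAbsolutelyIrreducible hΔ hp2 hirr)
    ({p} ∪ M.primeFactors ∪ W.Δ.natAbs.primeFactors) (fun l => W.apOfModel l)
    (fun l hl hlS A hA σ hσ => by
      simp only [Finset.mem_union, Finset.mem_singleton, Nat.mem_primeFactors, not_or] at hlS
      exact EC.charpoly_residualGaloisRepOf W hl hA
        (fun hd => hlS.2 ⟨hl, Int.natCast_dvd.1 hd, Int.natAbs_ne_zero.2 hΔ⟩) hσ hlS.1.1 _ _)
    hg hmax hpm fun l hl hlS => by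
      simp only [Finset.mem_union, Finset.mem_singleton, Nat.mem_primeFactors, not_or] at hlS
      exact hcong l hl (fun hd => hlS.2 ⟨hl, Int.natCast_dvd.1 hd, Int.natAbs_ne_zero.2 hΔ⟩)
        (fun hd => hlS.1.2 ⟨hl, hd, hM.ne'⟩) hlS.1.1
  letI := FiniteFlat.torsionByAction M ((p : ℤ) ^ 1)
  obtain ⟨H, _, _, hfin, -, -, e, hadd, hgal⟩ := S19.result M p hpM 1
  have hJ : FiniteFlat.HasFunctionModel (GaloisRep.ratLocalizedAt p) ℚ ℚ̄
      (Submodule.torsionBy ℤ (ModularCurve.JZero M) ((p : ℤ) ^ 1)) :=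
    FiniteFlat.hasFunctionModel_of_hopfAlgebra H e hadd fun σ f g h => Subtype.ext (hgal σ f g h)
  have hin : ∀ v, ψ v ∈ Submodule.torsionBy ℤ (ModularCurve.JZero M) ((p : ℤ) ^ 1) := fun v => by
    rw [Submodule.mem_torsionBy_iff, pow_one, natCast_zsmul, ← map_nsmul,
      ← Nat.cast_smul_eq_nsmul (ZMod p), ZMod.natCast_self, zero_smul, map_zero]
  let u : Tors W p →+ Submodule.torsionBy ℤ (ModularCurve.JZero M) ((p : ℤ) ^ 1) :=
    AddMonoidHom.mk' (fun v => ⟨ψ v, hin v⟩) fun v w => Subtype.ext (map_add ψ v w)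
  have hT : FiniteFlat.HasFunctionModel (GaloisRep.ratLocalizedAt p) ℚ ℚ̄ (Tors W p) :=
    hJ.of_injective u (fun v w h => hψ (congrArg Subtype.val h))
      fun σ v => Subtype.ext (hψσ σ v)
  exact (FlatLocal.hasLocalModel_of_hasFunctionModel (fun _ _ => rfl) hT).exists_model
    fun m => by rw [← Nat.cast_smul_eq_nsmul (ZMod p), ZMod.natCast_self, zero_smul]

end Fermat.Agent.Lifting.Squarefree.Tres
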