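import Fermat.Agent.Lifting.Squarefree.Tres.Jump
import Fermat.Agent.Lifting.Squarefree.Tres.Model
import Fermat.Agent.LevelP.PeuTorsion
import Fermat.Agent.EC.Mult.Decomposition
import Fermat.Agent.FlatLocal.PointProperty
import Fermat.Agent.FlatLocal.Decomposition

/-!
# Multiplicative reduction with `p ∤ ord_p Δ`: no integral model of `E[p]` at `p`

In the normal form the coordinate `x` of a `p`-torsion point off the identity component has value
prime to `p` and is moved by exactly `|ζ - 1| · |x|` by wild inertia.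
-/

set_option autoImplicit false

noncomputable section

open WeierstrassCurve
open scoped WeierstrassCurve.Affine

namespace Fermat.Agent.Lifting.Squarefree.Tres

open EC.TateTheta EC.Mult LevelP
open EC.Reducible (Tors)

local notation "ℚ̄" => AlgebraicClosure ℚ
local notation "Γℚ" => (AlgebraicClosure ℚ ≃ₐ[ℚ] AlgebraicClosure ℚ)

variable {p : ℕ} [hp : Fact p.Prime]

local notation "C" => PadicAlgCl p

theorem norm_le_of_valuation_le {a b : ℚ̄} (hb : b ≠ 0)
    (h : (padicPlace p).valuation a ≤ (padicPlace p).valuation b) :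
    ‖padicEmbedding p a‖ ≤ ‖padicEmbedding p b‖ := by
  have h1 : a / b ∈ padicPlace p := ((padicPlace p).valuation_le_one_iff _).1 (by
    rw [map_div₀]
    exact div_le_one_of_le₀ h zero_le)
  rw [mem_padicPlace_iff] at h1
  have h2 : ‖padicEmbedding p (a / b)‖ ≤ 1 := h1
  rw [map_div₀, norm_div, div_le_one (norm_pos_iff.2 ((map_ne_zero _).2 hb))] at h2
  exact h2

theorem norm_eq_of_valuation_eq {a b : ℚ̄} (ha : a ≠ 0) (hb : b ≠ 0)
    (h : (padicPlace p).valuation a = (padicPlace p).valuation b) :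
    ‖padicEmbedding p a‖ = ‖padicEmbedding p b‖ :=
  le_antisymm (norm_le_of_valuation_le hb h.le) (norm_le_of_valuation_le ha h.ge)

variable {W : WeierstrassCurve ℤ} {A : ValuationSubring (AlgebraicClosure ℚ)} (D : MultData W A)

/-- A wild element moves the `x`-coordinate of a point off the identity component by exactly
`v (ζ - 1)` relative to it, or fixes the point. -/
theorem valuation_move (hA : A.LiesOverPrime p) {ζ : ℚ̄} (hζ : IsPrimitiveRoot ζ p)
    (hcp : A.valuation D.c ≤ A.valuation (p : ℚ̄)) (hp2 : Odd p) {x y : ℚ̄}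
    {h : (tateModel D.c).toAffine.Nonsingular x y}
    (hP : p • (Affine.Point.some x y h) = 0) (hbad : ¬ IsE0 A (Affine.Point.some x y h))
    (σ : wildGroup A ζ) (hσ : actPt D σ (.some x y h) ≠ .some x y h) :
    A.valuation ((σ : Γℚ) x - x) = A.valuation x * A.valuation (ζ - 1) := by
  have hx : A.valuation x < 1 := not_le.mp hbad
  have he := (tateModel_equation_iff D.c x y).mp h.left
  obtain ⟨h2, hyx, hcx, -⟩ := bad_torsion_facts D.hc D.hc0 hp2 hP hx
  obtain ⟨hT, hpT⟩ := isE1_actPt_sub D hp.out hA hζ hcp σ hP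
  have hT0 : actPt D σ (.some x y h) - .some x y h ≠ 0 := sub_ne_zero.mpr hσ
  have hsum : Affine.Point.some x y h + (actPt D σ (.some x y h) - .some x y h) =
      actPt D σ (.some x y h) := add_sub_cancel _ _
  have hTv := valuation_rVal_torsion D.hc D.hc0 hp.out (Nat.cast_ne_zero.mpr hp.out.ne_zero) hcp
    (valuation_zeta_sub_one_pow hp.out hA hζ) hT hT0 hpT
  rcases hS : actPt D σ (.some x y h) - .some x y h with _ | ⟨x', y', h'⟩
  · exact absurd hS hT0
  rw [hS] at hsum hT hTv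
  have hx' : 1 < A.valuation x' := hT
  have hne : ¬(x = x' ∧ y = (tateModel D.c).toAffine.negY x' y') :=
    fun h1 => (hx.trans hx').ne (congrArg A.valuation h1.1)
  rw [Affine.Point.add_some hne] at hsum
  have hσx := (Affine.Point.some.inj hsum).1
  have hmove := valuation_addX_sub D.hc he ((tateModel_equation_iff D.c x' y').mp h'.left)
    hx hx' h2 hyx hcx
  rw [hσx] at hmove
  rw [← hTv]
  exact hmove

/-- **No model at a très ramifiée multiplicative prime.** -/
theorem false_of_model (hΔ0 : W.Δ ≠ 0) (hp2 : p ≠ 2) (hΔ : (p : ℤ) ∣ W.Δ)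
    (hc4 : ¬ (p : ℤ) ∣ W.c₄) (hv : ¬ p ∣ padicValInt p W.Δ)
    (h : letI := locAction W p; Nonempty (FlatLocal.Model p (Tors W p))) : False := by
  letI := locAction W p
  have hA : (padicPlace p).LiesOverPrime p :=
    TwoAdic.Selmer.liesOverPrime_padicPlace (q := ⟨p, hp.out⟩)
  obtain ⟨D⟩ := nonempty_multData hp.out hA hΔ0 hΔ hc4
  have : NeZero p := ⟨hp.out.ne_zero⟩
  obtain ⟨ζ, hζ⟩ := EC.exists_primitiveRoot_qbar p
  have hodd : Odd p := hp.out.odd_of_ne_two hp2
  have hp0 : (p : ℚ̄) ≠ 0 := Nat.cast_ne_zero.mpr hp.out.ne_zero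
  set N := padicValInt p W.Δ with hN
  have hvc : (padicPlace p).valuation D.c = (padicPlace p).valuation (p : ℚ̄) ^ (N : ℤ) := by
    rw [zpow_natCast, D.hvc, valuation_intCast hp.out hA hΔ0]
  have hN0 : N ≠ 0 := fun h0 => hv (h0 ▸ dvd_zero p)
  have hcp : (padicPlace p).valuation D.c ≤ (padicPlace p).valuation (p : ℚ̄) := by
    rw [hvc, zpow_natCast]
    exact pow_le_of_le_one zero_le (valuation_natCast_lt_one hA).le hN0
  -- a point off the identity component
  obtain ⟨-, P₁, -, -, -, hP₁, hP₁bad, -⟩ := exists_basis_level_one D.hc0 D.hc hp.out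
    (D.natCard_torsion hp.out) (natCard_isE0_torsion_le_of_residueChar D.hc D.hc0 hp.out
      (valuation_natCast_lt_one hA) hp0 hcp)
  rcases P₁ with _ | ⟨x, y, hns⟩
  · exact hP₁bad trivial
  have hx1 : (padicPlace p).valuation x < 1 := not_le.mp hP₁bad
  obtain ⟨-, -, hcx, k, hk⟩ := bad_torsion_facts D.hc D.hc0 hodd hP₁ hx1
  have hxv0 : 0 < (padicPlace p).valuation x := lt_of_le_of_lt zero_le hcx
  have hx0 : x ≠ 0 := fun h0 => by rw [h0, map_zero] at hxv0; exact lt_irrefl _ hxv0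
  have hcpos : 0 < (padicPlace p).valuation D.c :=
    zero_lt_iff.2 ((padicPlace p).valuation.ne_zero_iff.2 D.hc0)
  have hpk : ¬ (p : ℤ) ∣ k := by
    have h1 : (padicPlace p).valuation D.c ^ k < 1 := hk ▸ pow_lt_one₀ zero_le hx1 hp.out.ne_zero
    have h2 : (padicPlace p).valuation D.c ^ (p : ℤ) < (padicPlace p).valuation D.c ^ k := by
      rw [← hk, zpow_natCast]
      exact pow_lt_pow_left₀ hcx zero_le hp.out.ne_zero
    have hk0 : 0 < k := by
      rw [← zpow_zero ((padicPlace p).valuation D.c)] at h1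
      exact (zpow_lt_zpow_iff_right_of_lt_one₀ hcpos D.hc).1 h1
    have hkp : k < p := (zpow_lt_zpow_iff_right_of_lt_one₀ hcpos D.hc).1 h2
    intro hd
    have := Int.le_of_dvd hk0 hd
    omega
  -- the model and its field
  obtain ⟨T⟩ := h
  haveI := EC.Reducible.finiteDimensional_torsion (p := p) hΔ0
  haveI : Finite (Tors W p) := Module.finite_of_finite (ZMod p)
  obtain ⟨e, F, -, hval, hgen, -⟩ := T.exists_bigField hp2
  have hD := FlatLocal.hasPointProperty_of_model T F hval hgen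
  set R : ((W.map (Int.castRingHom ℚ))⁄ℚ̄).Point := D.equiv (.some x y hns) with hR
  have hRmem : R ∈ Submodule.torsionBy ℤ ((W.map (Int.castRingHom ℚ))⁄ℚ̄).Point (p : ℤ) := by
    rw [Submodule.mem_torsionBy_iff, natCast_zsmul, hR, ← map_nsmul, hP₁, map_zero]
  have hxF : padicEmbedding p x ∈ F.F := by
    refine FlatLocal.mem_of_forall_fixed F.F fun τ hτ => ?_
    have hfix : τ • (⟨R, hRmem⟩ : Tors W p) = ⟨R, hRmem⟩ :=
      (T.smul_eq_smul_of_eq_on (σ' := 1) fun i => by
        rw [AlgEquiv.one_apply]; exact hτ _ (hval i _)).trans (one_smul _ _)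
    have hfix' : localGaloisToGlobal p τ • R = R := congrArg Subtype.val hfix
    have hdec := localGaloisToGlobal_mem_decompositionSubgroup p τ
    rw [hR, D.smul_equiv hdec] at hfix'
    have hx' : localGaloisToGlobal p τ x = x := by
      rcases D.sign_eq_one_or (localGaloisToGlobal p τ) with h1 | h1
      · rw [h1, one_zsmul] at hfix'
        exact (Affine.Point.some.inj (D.equiv.injective hfix')).1
      · rw [h1, neg_one_zsmul, ← map_neg] at hfix'
        exact (Affine.Point.some.inj (D.equiv.injective hfix')).1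
    rw [← padicEmbedding_localGaloisToGlobal, hx']
  -- values
  have hnorm : ‖padicEmbedding p x‖ ^ p = ‖F.ϖ‖ ^ ((e : ℤ) * ((N : ℤ) * k)) := by
    have hval' : (padicPlace p).valuation (x ^ p) =
        (padicPlace p).valuation ((p : ℚ̄) ^ ((N : ℤ) * k)) := by
      rw [map_pow, hk, hvc, map_zpow₀, zpow_mul]
    have h1 := norm_eq_of_valuation_eq (pow_ne_zero p hx0) (zpow_ne_zero _ hp0) hval'
    rw [map_pow, norm_pow, map_zpow₀, norm_zpow, map_natCast, ← F.norm_varpi_pow,
      ← zpow_natCast ‖F.ϖ‖ e, ← zpow_mul] at h1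
    exact h1
  have hs : ¬ (p : ℤ) ∣ (e : ℤ) * ((N : ℤ) * k) := by
    intro hd
    have hP := Nat.prime_iff_prime_int.1 hp.out
    rcases hP.dvd_or_dvd hd with hd | hd
    · exact F.not_dvd (Int.natCast_dvd_natCast.1 hd)
    rcases hP.dvd_or_dvd hd with hd | hd
    · exact hv (Int.natCast_dvd_natCast.1 hd)
    · exact hpk hd
  -- the wild element of an automorphism fixing the tame field
  have hwild : ∀ τ : FlatLocal.Gp p, F.FixK τ → ∃ w : wildGroup (padicPlace p) ζ,
      ∀ z : ℚ̄, padicEmbedding p z ∈ F.F →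
        τ (padicEmbedding p z) = padicEmbedding p ((w : Γℚ) z) := by
    intro τ hτ
    obtain ⟨τ', hI, heq⟩ := F.exists_inertia_eq_on (σ := τ) fun z hz => hτ z (F.W_le_K hz)
    refine ⟨⟨localGaloisToGlobal p τ', ?_⟩, fun z hz => by
      rw [padicEmbedding_localGaloisToGlobal, heq _ hz]⟩
    rw [mem_wildGroup]
    refine ⟨TwoAdic.Selmer.toGlobal_mem_inertia ⟨p, hp.out⟩ hI, ?_⟩
    have hz : padicEmbedding p ζ ^ p = 1 := by rw [← map_pow, hζ.pow_eq_one, map_one]
    obtain ⟨i, -, hi⟩ := F.zeta_spec.eq_pow_of_pow_eq_one hz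
    refine (padicEmbedding p).toRingHom.injective ?_
    show padicEmbedding p (localGaloisToGlobal p τ' ζ) = padicEmbedding p ζ
    rw [padicEmbedding_localGaloisToGlobal, ← hi, map_pow,
      heq _ (F.K_le F.zeta_mem_K), hτ _ F.zeta_mem_K]
  let f := moveHom D hp.out hA hζ hcp hP₁
  have hfiff : ∀ w : wildGroup (padicPlace p) ζ, f w = 1 ↔ (w : Γℚ) x = x := by
    intro w
    rw [moveHom_eq_one_iff]
    refine ⟨fun h1 => (Affine.Point.some.inj h1).1, fun h1 => ?_⟩
    by_contra hne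
    have h2 := valuation_move D hA hζ hcp hodd hP₁ hP₁bad w hne
    rw [h1, sub_self, map_zero, eq_comm, mul_eq_zero] at h2
    rcases h2 with h2 | h2
    · exact hxv0.ne' h2
    · exact (padicPlace p).valuation.ne_zero_iff.2 (sub_ne_zero.2 (hζ.ne_one hp.out.one_lt)) h2
  have hmoved : ∃ τ : FlatLocal.Gp p, F.FixK τ ∧ τ (padicEmbedding p x) ≠ padicEmbedding p x := by
    by_contra! hall
    obtain ⟨l, hl⟩ := F.exists_norm_K_eq (FlatLocal.mem_of_forall_fixed F.K hall)
      ((map_ne_zero _).2 hx0)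
    rw [hl, ← zpow_natCast, ← zpow_mul] at hnorm
    exact hs ⟨l, by
      rw [← zpow_right_injective₀ F.norm_varpi_pos F.norm_varpi_lt_one.ne hnorm, mul_comm]⟩
  obtain ⟨σ, hσK, hσx⟩ := hmoved
  obtain ⟨w₀, hw₀⟩ := hwild σ hσK
  have hw₀x : f w₀ ≠ 1 := fun h1 => hσx (by rw [hw₀ x hxF, (hfiff w₀).1 h1])
  have hpow : ∀ n : ℕ, (σ ^ n) (padicEmbedding p x) =
      padicEmbedding p (((w₀ ^ n : wildGroup (padicPlace p) ζ) : Γℚ) x) := by
    intro n
    induction n with
    | zero => simp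
    | succ n ih =>
      rw [pow_succ', AlgEquiv.mul_apply, ih, hw₀ _ (ih ▸ F.normal _ _ hxF), pow_succ',
        Subgroup.coe_mul, AlgEquiv.mul_apply]
  have hfp : f w₀ ^ p = 1 := by
    show Multiplicative.ofAdd (actPt D w₀ (.some x y hns) - .some x y hns) ^ p = 1
    rw [← ofAdd_nsmul, (isE1_actPt_sub D hp.out hA hζ hcp w₀ hP₁).2, ofAdd_zero]
  refine false_of_jump_point F hD hσK hxF hs hnorm ?_ hσx ?_ ?_ ?_
  · -- the move
    have hne : actPt D w₀ (.some x y hns) ≠ .some x y hns := fun h1 =>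
      hw₀x ((moveHom_eq_one_iff D hp.out hA hζ hcp hP₁ w₀).2 h1)
    have h1 := valuation_move D hA hζ hcp hodd hP₁ hP₁bad w₀ hne
    rw [mul_comm, ← map_mul] at h1
    have h2 := norm_le_of_valuation_le
      (mul_ne_zero (sub_ne_zero.2 (hζ.ne_one hp.out.one_lt)) hx0) h1.le
    rw [map_sub, map_mul, norm_mul, map_sub, map_one, ← hw₀ x hxF] at h2
    refine h2.trans (le_of_eq ?_)
    have hzp : padicEmbedding p ζ ^ p = 1 := by rw [← map_pow, hζ.pow_eq_one, map_one]
    rw [FlatLocal.norm_sub_one_eq hzp F.zeta_spec.pow_eq_one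
      (fun h1 => hζ.ne_one hp.out.one_lt ((padicEmbedding p).toRingHom.injective
        (h1.trans (map_one _).symm)))
      (F.zeta_spec.ne_one hp.out.one_lt)]
  · rw [hpow, (hfiff (w₀ ^ p)).1 (by rw [map_pow, hfp])]
  · intro τ hτ
    obtain ⟨w, hw⟩ := hwild τ hτ
    obtain ⟨i, hi⟩ := Subgroup.mem_zpowers_iff.1
      (moveHom_mem_zpowers D hp.out hA hζ hcp hP₁ w₀ w hw₀x)
    have hp0' : (p : ℤ) ≠ 0 := by exact_mod_cast hp.out.ne_zero
    refine ⟨(i % (p : ℤ)).toNat, ?_, ?_⟩
    · have := Int.emod_lt_of_pos i (show (0 : ℤ) < p by exact_mod_cast hp.out.pos)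
      omega
    have hfw : f (w₀ ^ (i % (p : ℤ)).toNat) = f w := by
      rw [map_pow, ← zpow_natCast, Int.toNat_of_nonneg (Int.emod_nonneg i hp0'),
        ← show f w₀ ^ i = f w from hi]
      conv_rhs => rw [← Int.emod_add_mul_ediv i (p : ℤ), zpow_add, zpow_mul, zpow_natCast, hfp,
        one_zpow, mul_one]
    have h1 := (hfiff ((w₀ ^ (i % (p : ℤ)).toNat)⁻¹ * w)).1
      (by rw [map_mul, map_inv, hfw, inv_mul_cancel])
    rw [hpow, hw x hxF]
    congr 1
    rw [Subgroup.coe_mul, AlgEquiv.mul_apply, Subgroup.coe_inv] at h1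
    have h2 := congrArg ((w₀ ^ (i % (p : ℤ)).toNat : wildGroup (padicPlace p) ζ) : Γℚ) h1
    exact (AlgEquiv.apply_symm_apply _ _).symm.trans h2
  · intro τ hτ hfix i
    obtain ⟨w, hw⟩ := hwild τ hτ
    have hwx : (w : Γℚ) x = x :=
      (padicEmbedding p).toRingHom.injective ((hw x hxF).symm.trans hfix)
    have h1 := (hfiff ((w₀ ^ i)⁻¹ * (w * w₀ ^ i))).1 (by
      rw [map_mul, map_mul, map_inv, (hfiff w).2 hwx, one_mul, inv_mul_cancel])
    rw [hpow, hw _ (hpow i ▸ F.normal _ _ hxF)]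
    congr 1
    rw [Subgroup.coe_mul, AlgEquiv.mul_apply, Subgroup.coe_inv, Subgroup.coe_mul,
      AlgEquiv.mul_apply] at h1
    have h2 := congrArg ((w₀ ^ i : wildGroup (padicPlace p) ζ) : Γℚ) h1
    exact (AlgEquiv.apply_symm_apply _ _).symm.trans h2

end Fermat.Agent.Lifting.Squarefree.Tres
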