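import Fermat.Agent.FlatLocal.Criterion
import Fermat.Agent.FlatLocal.Wild

/-!
# A wild element of value prime to `p` contradicts the point property

Let `x ∈ F` have value prime to `p` in the normalisation of the tame field `K`, let `σ` fix `K`
and move `x` by at most `|ζ - 1| · |x|`, and let the conjugates of `x` over `K` be its
`σ`-translates.  A resolvent of `x` is then a Kummer element with value prime to `p`, excluded by
Fontaine's argument.
-/

set_option autoImplicit false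

noncomputable section

open Finset Polynomial

namespace Fermat.Agent.Lifting.Squarefree.Tres

open FlatLocal

variable {p : ℕ} [hp : Fact p.Prime] {e : ℕ}

local notation "C" => PadicAlgCl p

theorem sum_range_shift {R : Type*} [AddCommGroup R] (f : ℕ → R) (n : ℕ)
    (hf : ∀ i, f (i + n) = f i) (k : ℕ) :
    ∑ i ∈ range n, f (i + k) = ∑ i ∈ range n, f i := by
  induction k with
  | zero => simp
  | succ k ih =>
    rw [← ih]
    have h1 := Finset.sum_range_succ' (fun i => f (i + k)) n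
    have h2 := Finset.sum_range_succ (fun i => f (i + k)) n
    simp only [zero_add] at h1
    rw [h2, add_comm n k, hf k, add_left_inj] at h1
    rw [h1]
    exact Finset.sum_congr rfl fun i _ => by rw [Nat.add_right_comm, add_assoc]

theorem norm_zeta_pow_sub_one (D : TameField p e) {j : ℕ} (hj0 : 0 < j) (hj : j < p) :
    ‖D.zeta ^ j - 1‖ = ‖D.zeta - 1‖ :=
  norm_sub_one_eq (by rw [← pow_mul, mul_comm, pow_mul, D.zeta_spec.pow_eq_one, one_pow])
    D.zeta_spec.pow_eq_one (D.zeta_spec.pow_ne_one_of_pos_of_lt hj0.ne' hj)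
    (D.zeta_spec.ne_one hp.out.one_lt)

theorem false_of_jump_point (D : TameField p e) (hD : HasPointProperty D) {σ : Gp p}
    (hσ : D.FixK σ) {x : C} (hxF : x ∈ D.F) {s : ℤ} (hs : ¬ (p : ℤ) ∣ s)
    (hxs : ‖x‖ ^ p = ‖D.ϖ‖ ^ s) (hmove : ‖σ x - x‖ ≤ ‖D.zeta - 1‖ * ‖x‖) (hne : σ x ≠ x)
    (hper : (σ ^ p) x = x) (horb : ∀ τ : Gp p, D.FixK τ → ∃ i, i < p ∧ τ x = (σ ^ i) x)
    (hstab : ∀ τ : Gp p, D.FixK τ → τ x = x → ∀ i : ℕ, τ ((σ ^ i) x) = (σ ^ i) x) : False := by
  classical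
  have hppos := hp.out.pos
  set ω := D.zeta with hω
  have hωp : ω ^ p = 1 := D.zeta_spec.pow_eq_one
  set g := ‖D.ϖ‖ with hg
  have hg0 : 0 < g := D.norm_varpi_pos
  have hg1 : g < 1 := D.norm_varpi_lt_one
  have hxpos : 0 < ‖x‖ := by
    refine lt_of_le_of_ne (norm_nonneg _) fun h => ?_
    rw [← h, zero_pow hp.out.ne_zero] at hxs
    exact (zpow_pos hg0 s).ne hxs
  have hσK : ∀ n : ℕ, D.FixK (σ ^ n) := fun n => by
    induction n with
    | zero => intro y _; rfl
    | succ n ih => intro y hy; rw [pow_succ, AlgEquiv.mul_apply, hσ y hy, ih y hy]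
  have hωfix : ∀ (τ : Gp p), D.FixK τ → ∀ n : ℕ, τ (ω ^ n) = ω ^ n := fun τ hτ n => by
    rw [map_pow, hτ ω D.zeta_mem_K]
  set f : ℕ → ℕ → C := fun j i => ω ^ (i * j) * (σ ^ i) x with hf
  have hfper : ∀ j i, f j (i + p) = f j i := fun j i => by
    simp only [hf, pow_add, AlgEquiv.mul_apply, hper, pow_mul, hωp, mul_one]
  set R : ℕ → C := fun j => ∑ i ∈ range p, f j i with hR
  have hact : ∀ τ : Gp p, D.FixK τ → ∀ k : ℕ, τ x = (σ ^ k) x → ∀ j : ℕ,
      ω ^ (k * j) * τ (R j) = R j := by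
    intro τ hτ k hk j
    have hτi : ∀ i : ℕ, τ ((σ ^ i) x) = (σ ^ (i + k)) x := fun i => by
      have hK : D.FixK ((σ ^ k)⁻¹ * τ) := fun y hy => by
        rw [AlgEquiv.mul_apply, hτ y hy]
        conv_lhs => rw [← hσK k y hy]
        exact (σ ^ k).symm_apply_apply y
      have h1 : ((σ ^ k)⁻¹ * τ) x = x := by
        rw [AlgEquiv.mul_apply, hk]
        exact (σ ^ k).symm_apply_apply x
      have h2 := congrArg (σ ^ k) (hstab _ hK h1 i)
      rw [AlgEquiv.mul_apply, show ∀ y, (σ ^ k) ((σ ^ k)⁻¹ y) = y from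
        fun y => (σ ^ k).apply_symm_apply y] at h2
      rw [h2, ← AlgEquiv.mul_apply, ← pow_add, add_comm]
    rw [hR]
    simp only [map_sum, Finset.mul_sum]
    rw [← sum_range_shift (f j) p (hfper j) k]
    refine Finset.sum_congr rfl fun i _ => ?_
    simp only [hf, map_mul, hωfix τ hτ, hτi, add_mul, pow_add]
    ring
  -- a non-trivial resolvent
  obtain ⟨j, hj0, hjp, hRne⟩ : ∃ j, 0 < j ∧ j < p ∧ R j ≠ 0 := by
    by_contra! hall
    have hsum : ∑ j ∈ range p, R j = (p : C) * x := by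
      simp only [hR]
      rw [Finset.sum_comm, Finset.sum_eq_single 0]
      · simp [hf, nsmul_eq_mul]
      · intro i hi hi0
        simp only [hf, ← Finset.sum_mul, pow_mul]
        rw [(D.zeta_spec.pow_of_coprime i (((hp.out.coprime_iff_not_dvd).2 fun h =>
          hi0 (Nat.eq_zero_of_dvd_of_lt h (Finset.mem_range.1 hi))).symm)).geom_sum_eq_zero
            hp.out.one_lt, zero_mul]
      · intro h
        exact absurd (Finset.mem_range.2 hppos) h
    rw [Finset.sum_eq_single 0 (fun j hj hj0 => hall j (Nat.pos_of_ne_zero hj0)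
      (Finset.mem_range.1 hj)) fun h => absurd (Finset.mem_range.2 hppos) h] at hsum
    have h := hact σ hσ 1 (by rw [pow_one]) 0
    rw [mul_zero, pow_zero, one_mul, hsum, map_mul, map_natCast] at h
    exact hne (mul_left_cancel₀ (Nat.cast_ne_zero.2 hp.out.ne_zero) h)
  set β := R j with hβ
  have hβF : β ∈ D.F := sum_mem fun i _ =>
    mul_mem (pow_mem (D.K_le D.zeta_mem_K) _) (D.normal _ _ hxF)
  have hβK : β ^ p ∈ D.K := mem_of_forall_fixed D.K fun τ hτ => by
    obtain ⟨k, -, hk⟩ := horb τ hτ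
    have h := congrArg (fun y => y ^ p) (hact τ hτ k hk j)
    simp only [mul_pow, ← pow_mul, ← hβ] at h
    rw [map_pow, ← h, mul_comm (k * j) p, pow_mul, hωp, one_pow, one_mul]
  -- `β` in the basis of powers of `x`
  set L := D.K ⊔ IntermediateField.adjoin ℚ_[p] {x} with hL
  have hxL : x ∈ L :=
    le_sup_right (a := D.K) (IntermediateField.mem_adjoin_simple_self ℚ_[p] x)
  have hβL : β ∈ L := mem_of_forall_fixed L fun τ hτ => by
    have hK : D.FixK τ := fun y hy => hτ y ((le_sup_left : D.K ≤ L) hy)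
    rw [hβ, hR]
    simp only [hf, map_sum, map_mul, hωfix τ hK, hstab τ hK (hτ x hxL)]
  have hint : IsIntegral D.K x :=
    (Algebra.IsAlgebraic.isAlgebraic (R := ℚ_[p]) x).isIntegral.tower_top
  have hdeg : (minpoly D.K x).natDegree ≤ p := by
    set P := minpoly D.K x
    have hnd : (P.aroots C).Nodup := by
      refine Polynomial.nodup_roots ?_
      exact (minpoly.irreducible hint).separable.map
    have hcard : (P.aroots C).card = P.natDegree := by
      rw [← natDegree_map (algebraMap D.K C) (p := P)]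
      exact (IsAlgClosed.splits _).natDegree_eq_card_roots.symm
    rw [← hcard, ← Multiset.toFinset_card_of_nodup hnd]
    refine (Finset.card_le_card (t := (range p).image fun i => (σ ^ i) x) fun y hy => ?_).trans
      (Finset.card_image_le.trans (Finset.card_range p).le)
    rw [Multiset.mem_toFinset] at hy
    obtain ⟨σ', hσ'⟩ := minpoly.exists_algEquiv_of_root' (K := D.K) (L := C) hint.isAlgebraic
      (mem_aroots.1 hy).2
    obtain ⟨i, hi, hix⟩ := horb (σ'.restrictScalars ℚ_[p])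
      fun z hz => σ'.commutes ⟨z, hz⟩
    exact Finset.mem_image.2 ⟨i, Finset.mem_range.2 hi, hix.symm.trans hσ'⟩
  obtain ⟨c, hcK, hc⟩ := exists_expansion x hdeg hβL
  -- norms of the terms
  have hterm : ∀ i : Fin p, c i ≠ 0 →
      ∃ l : ℤ, ‖c i * x ^ (i : ℕ)‖ ^ p = g ^ ((p : ℤ) * l + s * (i : ℕ)) := fun i hi => by
    obtain ⟨l, hl⟩ := D.exists_norm_K_eq (hcK i) hi
    refine ⟨l, ?_⟩
    rw [norm_mul, norm_pow, mul_pow, hl, ← pow_mul, mul_comm (i : ℕ), pow_mul, hxs, ← hg,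
      zpow_add₀ hg0.ne', ← zpow_natCast (g ^ l), ← zpow_natCast (g ^ s), ← zpow_mul, ← zpow_mul,
      mul_comm l]
  have hdist : ∀ i ∈ (Finset.univ : Finset (Fin p)), ∀ i' ∈ (Finset.univ : Finset (Fin p)),
      c i * x ^ (i : ℕ) ≠ 0 → ‖c i * x ^ (i : ℕ)‖ = ‖c i' * x ^ (i' : ℕ)‖ → i = i' := by
    intro i _ i' _ hi he
    have hi' : c i' ≠ 0 := fun h => by
      rw [h, zero_mul, norm_zero, norm_eq_zero] at he; exact hi he
    obtain ⟨l, hl⟩ := hterm i (left_ne_zero_of_mul hi)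
    obtain ⟨l', hl'⟩ := hterm i' hi'
    rw [he, hl'] at hl
    have h := zpow_right_injective₀ hg0 hg1.ne hl
    have hd : (p : ℤ) ∣ s * (((i : ℕ) : ℤ) - ((i' : ℕ) : ℤ)) := ⟨l' - l, by linarith⟩
    have hd' := ((Nat.prime_iff_prime_int.1 hp.out).dvd_or_dvd hd).resolve_left hs
    have := Int.eq_zero_of_abs_lt_dvd hd' (by rw [abs_lt]; omega)
    exact Fin.ext (by omega)
  obtain ⟨hle, hex⟩ := norm_sum_distinct Finset.univ (fun i : Fin p => c i * x ^ (i : ℕ)) hdist
  rw [← hc] at hle hex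
  obtain ⟨i₀, -, hi₀⟩ := hex hRne
  -- the constant term does not lead
  have hτ0 : 0 < ‖ω - 1‖ := norm_pos_iff.2 (sub_ne_zero.2 (D.zeta_spec.ne_one hp.out.one_lt))
  have hσβ : ω ^ j * σ β = β := by
    have h := hact σ hσ 1 (by rw [pow_one]) j
    rwa [one_mul] at h
  have hσnorm : ‖σ β - β‖ = ‖ω - 1‖ * ‖β‖ := by
    conv_lhs => rw [← hσβ, map_mul, hωfix σ hσ, show ω ^ j * σ (σ β) - ω ^ j * σ β =
      ω ^ j * σ (σ β - β) by rw [map_sub]; ring]
    have h1 : σ β - β = (1 - ω ^ j) * σ β := by rw [sub_mul, one_mul, hσβ]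
    rw [norm_mul, norm_algEquiv, norm_pow, norm_eq_one_of_root hp.out.ne_zero hωp, one_pow,
      one_mul, h1, norm_mul, norm_algEquiv, norm_sub_rev, norm_zeta_pow_sub_one D hj0 hjp]
  have hi₀0 : (i₀ : ℕ) ≠ 0 := by
    intro h0
    have hbound : ‖σ β - β‖ < ‖ω - 1‖ * ‖β‖ := by
      have hexp : σ β - β = ∑ i : Fin p, c i * ((σ x) ^ (i : ℕ) - x ^ (i : ℕ)) := by
        rw [hc, map_sum, ← Finset.sum_sub_distrib]
        refine Finset.sum_congr rfl fun i _ => ?_
        rw [map_mul, map_pow, hσ _ (hcK i), mul_sub]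
      have hne' : (Finset.univ : Finset (Fin p)).Nonempty := ⟨i₀, Finset.mem_univ _⟩
      rw [hexp]
      obtain ⟨m, -, hm⟩ := IsUltrametricDist.exists_norm_finsetSum_le (Finset.univ : Finset (Fin p))
        (fun i : Fin p => c i * ((σ x) ^ (i : ℕ) - x ^ (i : ℕ)))
      refine lt_of_le_of_lt hm ?_
      have hβ0 : 0 < ‖ω - 1‖ * ‖β‖ := mul_pos hτ0 (norm_pos_iff.2 hRne)
      rcases eq_or_ne (m : ℕ) 0 with hm0 | hm0
      · simpa [hm0] using hβ0
      have hlt : ‖c m * x ^ (m : ℕ)‖ < ‖β‖ := by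
        refine lt_of_le_of_ne (hle m (Finset.mem_univ m)) fun he => ?_
        rcases eq_or_ne (c m * x ^ (m : ℕ)) 0 with h | h
        · rw [h, norm_zero] at he; exact hRne (norm_eq_zero.1 he.symm)
        · exact hm0 (by rw [hdist m (Finset.mem_univ m) i₀ (Finset.mem_univ i₀) h
            (he.trans hi₀), h0])
      rw [norm_mul]
      calc ‖c m‖ * ‖(σ x) ^ (m : ℕ) - x ^ (m : ℕ)‖
          ≤ ‖c m‖ * (‖x‖ ^ ((m : ℕ) - 1) * ‖σ x - x‖) :=
            mul_le_mul_of_nonneg_left (norm_pow_sub_pow_le (norm_algEquiv σ x).le le_rfl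
              (Nat.pos_of_ne_zero hm0)) (norm_nonneg _)
        _ ≤ ‖c m‖ * (‖x‖ ^ ((m : ℕ) - 1) * (‖ω - 1‖ * ‖x‖)) := by gcongr
        _ = ‖ω - 1‖ * ‖c m * x ^ (m : ℕ)‖ := by
            rw [norm_mul, norm_pow]
            conv_rhs => rw [← Nat.succ_pred_eq_of_pos (Nat.pos_of_ne_zero hm0), pow_succ]
            rw [Nat.pred_eq_sub_one]
            ring
        _ < ‖ω - 1‖ * ‖β‖ := by gcongr
    exact hbound.ne hσnorm
  have hci : c i₀ ≠ 0 := fun h => by
    rw [h, zero_mul, norm_zero, norm_eq_zero] at hi₀; exact hRne hi₀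
  obtain ⟨l, hl⟩ := hterm i₀ hci
  rw [← hi₀] at hl
  refine false_of_jump D hD hβK hβF rfl 0 0 D.e_pos (s := (p : ℤ) * l + s * (i₀ : ℕ))
    (fun hd => ?_) (by rw [Nat.cast_zero, sub_zero]; exact hl)
    (by rw [pow_zero, mul_one, Nat.cast_zero, sub_zero])
  have hd' := (Int.dvd_add_right (dvd_mul_right (p : ℤ) l)).1 hd
  have hd'' := ((Nat.prime_iff_prime_int.1 hp.out).dvd_or_dvd hd').resolve_left hs
  exact hi₀0 (Nat.eq_zero_of_dvd_of_lt (Int.natCast_dvd_natCast.1 hd'') i₀.2)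

end Fermat.Agent.Lifting.Squarefree.Tres
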